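import Fermat.Agent.Gamma0Cosets.Basic
import Fermat.Prelude.Def_ModularCurve_GenusNumerics
import Mathlib.NumberTheory.ArithmeticFunction.Misc
import Mathlib.Data.Nat.Factorization.Induction
import Mathlib.Data.Nat.Squarefree
import Mathlib.Data.ZMod.Units

/-!
# The index of `Γ₀(N)`

The cosets correspond to the pairs in `(ℤ/N)²` generating the unit ideal, up to units, so there are
`ψ(N)` of them.
-/

set_option autoImplicit false

open CongruenceSubgroup Matrix.SpecialLinearGroup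
open scoped MatrixGroups

namespace Fermat.Agent.Gamma0Cosets

/-- Pairs in `R²` generating the unit ideal. -/
abbrev PrimPair (R : Type) [CommRing R] := {v : R × R // IsCoprime v.1 v.2}

theorem isCoprime_prod_iff {R R' : Type} [CommRing R] [CommRing R'] (a b : R × R') :
    IsCoprime a b ↔ IsCoprime a.1 b.1 ∧ IsCoprime a.2 b.2 := by
  constructor
  · rintro ⟨u, v, h⟩
    exact ⟨⟨u.1, v.1, congrArg Prod.fst h⟩, ⟨u.2, v.2, congrArg Prod.snd h⟩⟩
  · rintro ⟨⟨u, v, h⟩, u', v', h'⟩
    exact ⟨(u, u'), (v, v'), Prod.ext h h'⟩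

theorem card_primPair_prod (R R' : Type) [CommRing R] [CommRing R'] :
    Nat.card (PrimPair (R × R')) = Nat.card (PrimPair R) * Nat.card (PrimPair R') := by
  rw [← Nat.card_prod]
  exact Nat.card_congr
    { toFun := fun v => (⟨(v.1.1.1, v.1.2.1), ((isCoprime_prod_iff _ _).1 v.2).1⟩,
        ⟨(v.1.1.2, v.1.2.2), ((isCoprime_prod_iff _ _).1 v.2).2⟩)
      invFun := fun w => ⟨((w.1.1.1, w.2.1.1), (w.1.1.2, w.2.1.2)),
        (isCoprime_prod_iff _ _).2 ⟨w.1.2, w.2.2⟩⟩
      left_inv := fun v => rfl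
      right_inv := fun w => rfl }

theorem card_primPair_congr {R R' : Type} [CommRing R] [CommRing R'] (e : R ≃+* R') :
    Nat.card (PrimPair R) = Nat.card (PrimPair R') := by
  refine Nat.card_congr ((e.toEquiv.prodCongr e.toEquiv).subtypeEquiv fun v => ?_)
  refine ⟨fun h => by simpa using h.map e.toRingHom, fun h => ?_⟩
  simpa using h.map e.symm.toRingHom

theorem isUnit_zmod_prime_pow_iff {p n : ℕ} (hp : p.Prime) (hn : 0 < n) (a : ZMod (p ^ n)) :
    IsUnit a ↔ ZMod.castHom (dvd_pow_self p hn.ne') (ZMod p) a ≠ 0 := by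
  have : NeZero (p ^ n) := ⟨pow_ne_zero _ hp.ne_zero⟩
  obtain ⟨a, rfl⟩ : ∃ k : ℕ, (k : ZMod (p ^ n)) = a := ⟨a.val, ZMod.natCast_zmod_val a⟩
  rw [map_natCast, Ne, ZMod.natCast_eq_zero_iff, ZMod.isUnit_iff_coprime,
    Nat.coprime_pow_right_iff hn, Nat.coprime_comm, hp.coprime_iff_not_dvd]

theorem card_primPair_prime_pow {p n : ℕ} (hp : p.Prime) (hn : 0 < n) :
    Nat.card (PrimPair (ZMod (p ^ n))) = (p ^ n) ^ 2 - (p ^ (n - 1)) ^ 2 := by
  classical
  have : NeZero (p ^ n) := ⟨pow_ne_zero _ hp.ne_zero⟩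
  have : Fact p.Prime := ⟨hp⟩
  have hcop : ∀ a b : ZMod (p ^ n), IsCoprime a b ↔ ¬ (¬ IsUnit a ∧ ¬ IsUnit b) := by
    intro a b
    constructor
    · rintro ⟨u, v, h⟩ ⟨ha, hb⟩
      rw [isUnit_zmod_prime_pow_iff hp hn, not_not] at ha hb
      have := congrArg (ZMod.castHom (dvd_pow_self p hn.ne') (ZMod p)) h
      rw [map_add, map_mul, map_mul, ha, hb, map_one, mul_zero, mul_zero, add_zero] at this
      exact zero_ne_one this
    · intro h
      rcases not_and_or.1 h with h | h <;> rw [not_not] at h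
      · obtain ⟨u, hu⟩ := h.exists_left_inv
        exact ⟨u, 0, by rw [hu, zero_mul, add_zero]⟩
      · obtain ⟨u, hu⟩ := h.exists_left_inv
        exact ⟨0, u, by rw [hu, zero_mul, zero_add]⟩
  have hnon : Fintype.card {a : ZMod (p ^ n) // ¬ IsUnit a} = p ^ (n - 1) := by
    have h1 : Fintype.card {a : ZMod (p ^ n) // IsUnit a} = (p ^ n).totient := by
      rw [← ZMod.card_units_eq_totient]
      exact Fintype.card_congr (Equiv.ofBijective (fun a => a.2.unit)
        ⟨fun a b h => Subtype.ext (by simpa using congrArg Units.val h),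
          fun u => ⟨⟨u, u.isUnit⟩, Units.ext rfl⟩⟩)
    rw [Fintype.card_subtype_compl, h1, ZMod.card, Nat.totient_prime_pow hp hn]
    obtain ⟨m, rfl⟩ : ∃ m, n = m + 1 := ⟨n - 1, by lia⟩
    rw [Nat.add_sub_cancel, Nat.mul_sub, mul_one, ← pow_succ]
    have : p ^ m ≤ p ^ (m + 1) := Nat.pow_le_pow_right hp.pos (Nat.le_succ m)
    lia
  rw [Nat.card_congr (Equiv.subtypeEquivRight fun v : ZMod (p ^ n) × ZMod (p ^ n) => hcop v.1 v.2),
    Nat.card_eq_fintype_card, Fintype.card_subtype_compl,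
    Fintype.card_congr (Equiv.subtypeProdEquivProd (p := fun a : ZMod (p ^ n) => ¬ IsUnit a)
      (q := fun a : ZMod (p ^ n) => ¬ IsUnit a)), Fintype.card_prod, Fintype.card_prod, hnon,
    ZMod.card]
  ring_nf

/-- The arithmetic function `n ↦ [n squarefree]`. -/
def sqfreeInd : ArithmeticFunction ℕ := ⟨fun n => if Squarefree n then 1 else 0, by simp⟩

theorem isMultiplicative_sqfreeInd : sqfreeInd.IsMultiplicative := by
  refine ⟨by simp [sqfreeInd], fun {m n} h => ?_⟩
  simp only [sqfreeInd, ArithmeticFunction.coe_mk, Nat.squarefree_mul h]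
  split_ifs <;> simp_all

theorem dedekindPsi_eq_apply (n : ℕ) :
    ModularCurve.dedekindPsi n = (sqfreeInd * ArithmeticFunction.id : ArithmeticFunction ℕ) n := by
  rw [ModularCurve.dedekindPsi, ArithmeticFunction.mul_apply,
    Nat.sum_divisorsAntidiagonal (fun a b => sqfreeInd a * ArithmeticFunction.id b),
    Finset.sum_filter]
  exact Finset.sum_congr rfl fun d _ => by simp [sqfreeInd]

/-- `ψ` is multiplicative. -/
theorem dedekindPsi_mul {m n : ℕ} (h : m.Coprime n) :
    ModularCurve.dedekindPsi (m * n)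
      = ModularCurve.dedekindPsi m * ModularCurve.dedekindPsi n := by
  simp only [dedekindPsi_eq_apply]
  exact (isMultiplicative_sqfreeInd.mul ArithmeticFunction.isMultiplicative_id).map_mul_of_coprime h

/-- `ψ (p ^ n) = p ^ n + p ^ (n - 1)` for a prime `p` and `n > 0`. -/
theorem dedekindPsi_prime_pow {p n : ℕ} (hp : p.Prime) (hn : 0 < n) :
    ModularCurve.dedekindPsi (p ^ n) = p ^ n + p ^ (n - 1) := by
  rw [ModularCurve.dedekindPsi, Finset.sum_filter, Nat.sum_divisors_prime_pow hp]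
  obtain ⟨m, rfl⟩ : ∃ m, n = m + 1 := ⟨n - 1, by lia⟩
  rw [Finset.sum_range_succ', Finset.sum_range_succ']
  have h0 : ∀ i ∈ Finset.range m,
      (if Squarefree (p ^ (i + 1 + 1)) then p ^ (m + 1) / p ^ (i + 1 + 1) else 0) = 0 := by
    intro i _
    rw [if_neg]
    rw [Nat.squarefree_pow_iff hp.ne_one (by lia)]
    lia
  rw [Finset.sum_eq_zero h0]
  simp only [zero_add, pow_one, pow_zero, hp.squarefree, squarefree_one, if_true, Nat.div_one]
  rw [pow_succ, Nat.mul_div_cancel _ hp.pos, Nat.add_sub_cancel]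
  ring

theorem card_primPair (N : ℕ) [NeZero N] :
    Nat.card (PrimPair (ZMod N)) = N.totient * ModularCurve.dedekindPsi N := by
  suffices ∀ M : ℕ, M ≠ 0 → Nat.card (PrimPair (ZMod M))
      = M.totient * ModularCurve.dedekindPsi M from this N (NeZero.ne N)
  intro M
  induction M using Nat.recOnPosPrimePosCoprime with
  | zero => simp
  | one =>
    intro _
    rw [Nat.totient_one, ModularCurve.dedekindPsi_one, one_mul, Nat.card_eq_one_iff_exists]
    exact ⟨⟨0, 0, 0, Subsingleton.elim _ _⟩, fun y => Subsingleton.elim _ _⟩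
  | prime_pow p n hp hn =>
    intro _
    rw [card_primPair_prime_pow hp hn, dedekindPsi_prime_pow hp hn, Nat.totient_prime_pow hp hn]
    obtain ⟨m, rfl⟩ : ∃ m, n = m + 1 := ⟨n - 1, by lia⟩
    rw [Nat.add_sub_cancel, Nat.sq_sub_sq, pow_succ]
    conv_rhs => rw [Nat.mul_sub, mul_one]
    rw [mul_comm]
  | coprime a b ha hb hab iha ihb =>
    intro _
    rw [card_primPair_congr (ZMod.chineseRemainder hab), card_primPair_prod,
      iha (by lia), ihb (by lia), Nat.totient_mul hab, dedekindPsi_mul hab]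
    ring

/-- An integer lift of a generating pair mod `N` to a bottom row. -/
theorem exists_row_lift {N : ℕ} [NeZero N] (v : PrimPair (ZMod N)) :
    ∃ A : SL(2, ℤ), ((A 1 0 : ZMod N), (A 1 1 : ZMod N)) = v.1 := by
  obtain ⟨⟨c, d⟩, u, w, h⟩ := v
  -- a positive lift of `c`, then Dirichlet-free: `gcd(c₀, d₀ + t N) = 1` via `unitsMap`.
  set c₀ : ℕ := c.val + N with hc₀
  set e : ℕ := Nat.gcd c₀ N with he
  have hcN : ((c₀ : ℕ) : ZMod N) = c := by simp [hc₀]
  -- `d` is a unit mod `gcd (c₀, N)`; lift it to a unit mod `c₀`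
  have : NeZero c₀ := ⟨by have := NeZero.ne N; lia⟩
  have heN : e ∣ N := Nat.gcd_dvd_right _ _
  have hec : e ∣ c₀ := Nat.gcd_dvd_left _ _
  have hd : IsUnit (ZMod.castHom heN (ZMod e) d) := by
    have := congrArg (ZMod.castHom heN (ZMod e)) h
    rw [map_add, map_mul, map_mul, map_one, ← hcN, map_natCast,
      (ZMod.natCast_eq_zero_iff _ _).2 hec, mul_zero, zero_add, mul_comm] at this
    exact IsUnit.of_mul_eq_one _ this
  obtain ⟨x, hx⟩ := ZMod.unitsMap_surjective hec hd.unit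
  -- `d₁ ≡ d (mod e)` and coprime to `c₀`; correct it modulo `N` by a multiple of `c₀`
  set d₁ : ℕ := (x : ZMod c₀).val with hd₁
  have hcop : Nat.Coprime d₁ c₀ := ZMod.val_coe_unit_coprime x
  have hmod : ((d.val : ℤ) - d₁ : ℤ) ≡ 0 [ZMOD e] := by
    rw [← ZMod.intCast_eq_intCast_iff]
    have h1 := congrArg Units.val hx
    rw [ZMod.unitsMap_val, IsUnit.unit_spec] at h1
    push_cast
    rw [sub_eq_zero]
    calc ((d.val : ℕ) : ZMod e) = ZMod.castHom heN (ZMod e) d := by
          conv_rhs => rw [← ZMod.natCast_zmod_val d, map_natCast]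
      _ = ZMod.castHom hec (ZMod e) (x : ZMod c₀) := by rw [← h1]; rfl
      _ = ((d₁ : ℕ) : ZMod e) := by
          conv_lhs => rw [← ZMod.natCast_zmod_val (x : ZMod c₀), map_natCast]
  obtain ⟨k, hk⟩ := Int.modEq_zero_iff_dvd.1 hmod
  have hbez : (e : ℤ) = c₀ * Nat.gcdA c₀ N + N * Nat.gcdB c₀ N := Nat.gcd_eq_gcd_ab c₀ N
  have hcop' : IsCoprime (c₀ : ℤ) ((d₁ : ℤ) + k * Nat.gcdA c₀ N * c₀) := by
    exact (Nat.isCoprime_iff_coprime.2 hcop.symm).add_mul_right_right _
  obtain ⟨A, hA0, hA1⟩ := hcop'.exists_SL2_row 1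
  refine ⟨A, Prod.ext ?_ ?_⟩
  · simp [hA0, hcN]
  · simp only [hA1]
    have h2 : ((d₁ : ℤ) + k * Nat.gcdA c₀ N * c₀) = d.val - (N : ℤ) * (Nat.gcdB c₀ N * k) := by
      rw [hbez] at hk; linear_combination -hk
    rw [h2]; simp

/-- The index of `Γ₀(N)` is `ψ(N)`. -/
theorem card_cosets (N : ℕ) [NeZero N] :
    Nat.card (SL(2, ℤ) ⧸ Gamma0 N) = ModularCurve.dedekindPsi N := by
  choose rep hrep using pt_surjective (N := N)
  have hrow : ∀ A : SL(2, ℤ), IsCoprime ((A 1 0 : ZMod N)) ((A 1 1 : ZMod N)) := fun A =>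
    (isCoprime_row A 1).map (Int.castRingHom (ZMod N))
  let F : (SL(2, ℤ) ⧸ Gamma0 N) × (ZMod N)ˣ → PrimPair (ZMod N) := fun p =>
    ⟨((p.2 : ZMod N) * (rep p.1 1 0 : ZMod N), (p.2 : ZMod N) * (rep p.1 1 1 : ZMod N)),
      (isCoprime_mul_unit_left p.2.isUnit _ _).2 (hrow _)⟩
  have hF : Function.Bijective F := by
    constructor
    · rintro ⟨x, u⟩ ⟨y, w⟩ hxy
      obtain ⟨h1, h2⟩ := Prod.ext_iff.1 (congrArg Subtype.val hxy)
      simp only [F] at h1 h2
      have hcross : pt N (rep x) = pt N (rep y) := by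
        rw [pt_eq_pt_iff, ← ZMod.intCast_zmod_eq_zero_iff_dvd, crossProd]
        push_cast
        refine u.isUnit.mul_left_cancel ?_
        refine w.isUnit.mul_left_cancel ?_
        linear_combination (w : ZMod N) * (rep y 1 1 : ZMod N) * h1
          - (w : ZMod N) * (rep y 1 0 : ZMod N) * h2
      rw [hrep, hrep] at hcross
      subst hcross
      obtain ⟨s, t, hst⟩ := hrow (rep x)
      exact Prod.ext rfl (Units.ext (by linear_combination s * h1 + t * h2
        - ((u : ZMod N) - w) * hst))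
    · intro v
      obtain ⟨A, hA⟩ := exists_row_lift v
      set B := rep (pt N A) with hB
      have hcross := pt_eq_pt_iff.1 (hrep (pt N A))
      rw [← ZMod.intCast_zmod_eq_zero_iff_dvd, crossProd, ← hB] at hcross
      push_cast at hcross
      obtain ⟨s, t, hst⟩ := hrow B
      obtain ⟨s', t', hst'⟩ := hrow A
      set c := (B 1 0 : ZMod N)
      set d := (B 1 1 : ZMod N)
      set c' := (A 1 0 : ZMod N)
      set d' := (A 1 1 : ZMod N)
      have hu : (s * c' + t * d') * (s' * c + t' * d) = 1 := by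
        linear_combination (s' * c' + t' * d') * hst + hst' + (t * s' - s * t') * hcross
      refine ⟨(pt N A, Units.mkOfMulEqOne _ _ hu), Subtype.ext ?_⟩
      rw [← hA]
      refine Prod.ext ?_ ?_ <;> simp only [F, ← hB, Units.val_mkOfMulEqOne]
      · linear_combination c' * hst + t * hcross
      · linear_combination d' * hst - s * hcross
  have hcard := Nat.card_eq_of_bijective F hF
  rw [Nat.card_prod, card_primPair, Nat.card_eq_fintype_card (α := (ZMod N)ˣ),
    ZMod.card_units_eq_totient] at hcard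
  have := Nat.totient_pos.2 (Nat.pos_of_ne_zero (NeZero.ne N))
  rw [mul_comm] at hcard
  exact Nat.eq_of_mul_eq_mul_left this hcard

end Fermat.Agent.Gamma0Cosets
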