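import Fermat.Agent.Gamma0Cosets.Basic
import Fermat.Prelude.Def_ModularCurve_GenusNumerics
import Mathlib.Data.ZMod.Units

/-!
# The number of cusps of `Γ₀(N)`

The `⟨T⟩`-orbits on `SL(2, ℤ) ⧸ Γ₀(N)` are parametrised by a divisor `e` of `N` and a unit modulo
`gcd (e, N / e)`, so there are `cuspCount N` of them.
-/

set_option autoImplicit false

open CongruenceSubgroup Matrix.SpecialLinearGroup ModularGroup MulAction
open scoped MatrixGroups

namespace Fermat.Agent.Gamma0Cosets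

variable {N : ℕ} [NeZero N]

/-- The width-reduced modulus attached to a divisor `e` of `N`. -/
abbrev cuspMod (N e : ℕ) : ℕ := Nat.gcd e (N / e)

/-- Labels of cusps of `Γ₀(N)`: a divisor `e` and a unit modulo `gcd (e, N / e)`. -/
abbrev CuspLabel (N : ℕ) := (e : N.divisors) × (ZMod (cuspMod N e.1))ˣ

omit [NeZero N] in
theorem T_zpow_smul_pt (t : ℤ) (A : SL(2, ℤ)) : T ^ t • pt N A = pt N (A * T ^ (-t)) := by
  rw [smul_pt, zpow_neg]

omit [NeZero N] in
theorem mul_T_zpow_row (t : ℤ) (A : SL(2, ℤ)) :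
    (A * T ^ t) 1 0 = A 1 0 ∧ (A * T ^ t) 1 1 = A 1 1 + t * A 1 0 := by
  constructor <;>
    simp [coe_T_zpow, Matrix.mul_apply, Fin.sum_univ_two, -map_zpow]
  ring

omit [NeZero N] in
/-- `pt A` and `pt B` are in one `⟨T⟩`-orbit iff some shifted cross product vanishes mod `N`. -/
theorem orbit_mk_eq_iff (A B : SL(2, ℤ)) :
    (Quotient.mk (orbitRel (Subgroup.zpowers T) (SL(2, ℤ) ⧸ Gamma0 N)) (pt N A)
      = Quotient.mk _ (pt N B)) ↔
    ∃ t : ℤ, (N : ℤ) ∣ A 1 0 * B 1 1 - (A 1 1 + t * A 1 0) * B 1 0 := by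
  rw [eq_comm, Quotient.eq, orbitRel_apply, mem_orbit_iff]
  constructor
  · rintro ⟨⟨g, t, rfl⟩, hg⟩
    refine ⟨-t, ?_⟩
    have hg' : T ^ t • pt N A = pt N B := hg
    rw [T_zpow_smul_pt, pt_eq_pt_iff, crossProd] at hg'
    rwa [(mul_T_zpow_row _ A).1, (mul_T_zpow_row _ A).2] at hg'
  · rintro ⟨t, ht⟩
    refine ⟨⟨T ^ (-t), Subgroup.zpow_mem _ (Subgroup.mem_zpowers _) _⟩, ?_⟩
    show T ^ (-t) • pt N A = pt N B
    rw [T_zpow_smul_pt, pt_eq_pt_iff, crossProd, neg_neg, (mul_T_zpow_row _ A).1,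
      (mul_T_zpow_row _ A).2]
    exact ht

omit [NeZero N] in
theorem exists_row_label (l : CuspLabel N) :
    ∃ A : SL(2, ℤ), A 1 0 = (l.1.1 : ℤ) ∧
      ((A 1 1 : ℤ) : ZMod (cuspMod N l.1.1)) = l.2 := by
  have : NeZero l.1.1 := ⟨(Nat.pos_of_mem_divisors l.1.2).ne'⟩
  obtain ⟨x, hx⟩ := ZMod.unitsMap_surjective (Nat.gcd_dvd_left l.1.1 (N / l.1.1)) l.2
  obtain ⟨A, hA0, hA1⟩ := IsCoprime.exists_SL2_row
    (Nat.isCoprime_iff_coprime.2 (ZMod.val_coe_unit_coprime x).symm) 1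
  refine ⟨A, hA0, ?_⟩
  rw [hA1, Int.cast_natCast, ← hx, ZMod.unitsMap_val, ZMod.cast_eq_val]

/-- The orbit attached to a label. -/
noncomputable def labelOrbit (l : CuspLabel N) :
    orbitRel.Quotient (Subgroup.zpowers T) (SL(2, ℤ) ⧸ Gamma0 N) :=
  Quotient.mk _ (pt N (exists_row_label l).choose)

omit [NeZero N] in
theorem labelOrbit_injective : Function.Injective (labelOrbit (N := N)) := by
  intro l l' h
  obtain ⟨hA0, hA1⟩ := (exists_row_label l).choose_spec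
  obtain ⟨hB0, hB1⟩ := (exists_row_label l').choose_spec
  obtain ⟨⟨e, he⟩, w⟩ := l
  obtain ⟨⟨e', he'⟩, w'⟩ := l'
  obtain ⟨t, k, hk⟩ := (orbit_mk_eq_iff _ _).1 h
  set A := (exists_row_label (⟨⟨e, he⟩, w⟩ : CuspLabel N)).choose
  set B := (exists_row_label (⟨⟨e', he'⟩, w'⟩ : CuspLabel N)).choose
  simp only at hA0 hB0 hA1 hB1
  obtain ⟨heN, -⟩ := Nat.mem_divisors.1 he
  obtain ⟨he'N, -⟩ := Nat.mem_divisors.1 he'
  have hcA : IsCoprime (e : ℤ) (A 1 1 + t * e) :=
    (hA0 ▸ isCoprime_row A 1).add_mul_right_right t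
  have hcB : IsCoprime (e' : ℤ) (B 1 1) := hB0 ▸ isCoprime_row B 1
  rw [hA0, hB0] at hk
  have h1 : (e : ℤ) ∣ e' := by
    refine hcA.dvd_of_dvd_mul_left ?_
    have : (e : ℤ) ∣ (N : ℤ) := Int.natCast_dvd_natCast.2 heN
    rw [show (A 1 1 + t * e) * e' = e * B 1 1 - N * k by linear_combination -hk]
    exact dvd_sub (dvd_mul_right _ _) (this.mul_right _)
  have h2 : (e' : ℤ) ∣ e := by
    refine hcB.dvd_of_dvd_mul_right ?_
    have : (e' : ℤ) ∣ (N : ℤ) := Int.natCast_dvd_natCast.2 he'N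
    rw [show (e : ℤ) * B 1 1 = (A 1 1 + t * e) * e' + N * k by linear_combination hk]
    exact dvd_add (dvd_mul_left _ _) (this.mul_right _)
  obtain rfl : e = e' := Nat.dvd_antisymm (Int.natCast_dvd_natCast.1 h1) (Int.natCast_dvd_natCast.1 h2)
  have he0 : (e : ℤ) ≠ 0 := by exact_mod_cast (Nat.pos_of_mem_divisors he).ne'
  have hN : (N : ℤ) = e * (N / e : ℕ) := by exact_mod_cast (Nat.mul_div_cancel' heN).symm
  have h3 : B 1 1 - A 1 1 = t * e + (N / e : ℕ) * k := by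
    refine mul_left_cancel₀ he0 ?_
    rw [hN] at hk
    linear_combination hk
  have h4 : w' = w := by
    refine Units.ext ?_
    rw [← hA1, ← hB1, ← sub_eq_zero, ← Int.cast_sub, h3, Int.cast_add, Int.cast_mul, Int.cast_mul,
      Int.cast_natCast, Int.cast_natCast, (ZMod.natCast_eq_zero_iff _ _).2 (Nat.gcd_dvd_left e (N / e)),
      (ZMod.natCast_eq_zero_iff _ _).2 (Nat.gcd_dvd_right e (N / e))]
    simp
  rw [h4]

theorem labelOrbit_surjective : Function.Surjective (labelOrbit (N := N)) := by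
  intro q
  induction q using Quotient.inductionOn' with
  | h p =>
    obtain ⟨A, rfl⟩ := pt_surjective p
    obtain ⟨s, u, hsu⟩ := isCoprime_row A 1
    set c := A 1 0
    set d := A 1 1
    set e : ℕ := Int.gcd c N with he
    have heN : e ∣ N := Int.natCast_dvd_natCast.1 (Int.gcd_dvd_right _ _)
    have he_mem : e ∈ N.divisors := Nat.mem_divisors.2 ⟨heN, NeZero.ne N⟩
    obtain ⟨c', hc'⟩ : (e : ℤ) ∣ c := Int.gcd_dvd_left _ _
    set M : ℕ := N / e with hM
    have hN : (N : ℤ) = e * M := by exact_mod_cast (Nat.mul_div_cancel' heN).symm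
    have he0 : (e : ℤ) ≠ 0 := by exact_mod_cast (Nat.pos_of_mem_divisors he_mem).ne'
    set a := Int.gcdA c N
    set b := Int.gcdB c N
    have hab : c' * a + M * b = 1 := by
      refine mul_left_cancel₀ he0 ?_
      have := Int.gcd_eq_gcd_ab c N
      linear_combination -this - a * hc' - b * hN
    set g : ℕ := cuspMod N e with hg
    have hge : ((e : ℕ) : ZMod g) = 0 := (ZMod.natCast_eq_zero_iff _ _).2 (Nat.gcd_dvd_left e M)
    have hgM : ((M : ℕ) : ZMod g) = 0 := (ZMod.natCast_eq_zero_iff _ _).2 (Nat.gcd_dvd_right e M)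
    have hinv : ((a * d : ℤ) : ZMod g) * ((c' * u : ℤ) : ZMod g) = 1 := by
      have h1 := congrArg (Int.cast : ℤ → ZMod g) hsu
      have h2 := congrArg (Int.cast : ℤ → ZMod g) hab
      have h3 := congrArg (Int.cast : ℤ → ZMod g) hc'
      push_cast at h1 h2 h3 ⊢
      rw [hge, zero_mul] at h3
      rw [hgM, zero_mul, add_zero] at h2
      rw [h3, mul_zero, zero_add] at h1
      linear_combination (c' : ZMod g) * a * h1 + h2
    let l : CuspLabel N := ⟨⟨e, he_mem⟩, Units.mkOfMulEqOne _ _ hinv⟩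
    obtain ⟨hB0, hB1⟩ := (exists_row_label l).choose_spec
    refine ⟨l, ?_⟩
    change Quotient.mk _ (pt N (exists_row_label l).choose) = Quotient.mk _ (pt N A)
    rw [orbit_mk_eq_iff]
    set B := (exists_row_label l).choose
    have hB0' : B 1 0 = (e : ℤ) := hB0
    have hB1' : ((B 1 1 : ℤ) : ZMod g) = ((a * d : ℤ) : ZMod g) := hB1
    rw [ZMod.intCast_eq_intCast_iff_dvd_sub] at hB1'
    obtain ⟨k, hk⟩ := hB1'
    have hbez : (g : ℤ) = e * Nat.gcdA e M + M * Nat.gcdB e M := Nat.gcd_eq_gcd_ab e M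
    refine ⟨k * Nat.gcdA e M, d * b + c' * k * Nat.gcdB e M, ?_⟩
    rw [hB0']
    linear_combination (-(B 1 1) - k * Nat.gcdA e M * e) * hc'
      - (e : ℤ) * d * hab + (e : ℤ) * c' * hk + (e : ℤ) * c' * k * hbez
      - (d * b + c' * k * Nat.gcdB e M) * hN

/-- The number of cusps of `Γ₀(N)`. -/
theorem card_orbits_T (N : ℕ) [NeZero N] :
    Nat.card (orbitRel.Quotient (Subgroup.zpowers T) (SL(2, ℤ) ⧸ Gamma0 N))
      = ModularCurve.cuspCount N := by
  rw [← Nat.card_eq_of_bijective _ ⟨labelOrbit_injective, labelOrbit_surjective⟩,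
    Nat.card_sigma, ModularCurve.cuspCount,
    ← Finset.sum_coe_sort N.divisors (fun d => Nat.totient (Nat.gcd d (N / d)))]
  refine Finset.sum_congr rfl fun e _ => ?_
  have : NeZero (cuspMod N e.1) :=
    ⟨(Nat.gcd_pos_of_pos_left _ (Nat.pos_of_mem_divisors e.2)).ne'⟩
  rw [Nat.card_eq_fintype_card, ZMod.card_units_eq_totient]

end Fermat.Agent.Gamma0Cosets
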