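import Fermat.Agent.Gamma0Cosets.FixedPoints
import Mathlib.GroupTheory.OrderOfElement

/-!
# Orbits of `⟨S⟩` and `⟨S * T⟩` on the cosets of `Γ₀(N)`

Burnside's lemma gives their numbers from the index and the numbers of fixed points.
-/

set_option autoImplicit false

open CongruenceSubgroup Matrix.SpecialLinearGroup ModularGroup MulAction
open scoped MatrixGroups

namespace Fermat.Agent.Gamma0Cosets

variable {N : ℕ} [NeZero N]

omit [NeZero N] in
theorem neg_smul_eq (g : SL(2, ℤ)) (x : SL(2, ℤ) ⧸ Gamma0 N) : (-g) • x = g • x := by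
  rw [show -g = (-1) * g by simp, mul_smul, neg_one_smul]

theorem sum_fixedBy_pow_eq {g : SL(2, ℤ)} (hg : IsOfFinOrder g) :
    ∑ i : Fin (orderOf g), Nat.card (fixedBy (SL(2, ℤ) ⧸ Gamma0 N) (g ^ (i : ℕ)))
      = Nat.card (orbitRel.Quotient (Subgroup.zpowers g) (SL(2, ℤ) ⧸ Gamma0 N)) * orderOf g := by
  classical
  have : Fintype (SL(2, ℤ) ⧸ Gamma0 N) := Fintype.ofFinite _
  have : Fintype (Subgroup.zpowers g) := Fintype.ofEquiv _ (finEquivZPowers hg)
  have : Fintype (orbitRel.Quotient (Subgroup.zpowers g) (SL(2, ℤ) ⧸ Gamma0 N)) :=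
    Fintype.ofFinite _
  have h := sum_card_fixedBy_eq_card_orbits_mul_card_group (Subgroup.zpowers g)
    (SL(2, ℤ) ⧸ Gamma0 N)
  simp only [← Nat.card_eq_fintype_card, Nat.card_zpowers] at h
  refine Eq.trans ?_ h
  rw [← (finEquivZPowers hg).sum_comp]
  refine Finset.sum_congr rfl fun i _ => ?_
  rw [finEquivZPowers_apply]
  rfl

theorem orderOf_S : orderOf S = 4 := by
  rw [show (4 : ℕ) = 2 ^ (1 + 1) by norm_num]
  have : Fact (Nat.Prime 2) := ⟨Nat.prime_two⟩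
  exact orderOf_eq_prime_pow (by decide) (by decide)

theorem orderOf_ST : orderOf (S * T) = 6 := by
  rw [orderOf_eq_iff (by norm_num)]
  refine ⟨by decide, fun m hm hm0 => ?_⟩
  interval_cases m <;> decide

omit [NeZero N] in
theorem fixedBy_neg (g : SL(2, ℤ)) :
    fixedBy (SL(2, ℤ) ⧸ Gamma0 N) (-g) = fixedBy (SL(2, ℤ) ⧸ Gamma0 N) g := by
  ext x; simp [neg_smul_eq]

omit [NeZero N] in
theorem fixedBy_one_eq :
    Nat.card (fixedBy (SL(2, ℤ) ⧸ Gamma0 N) (1 : SL(2, ℤ))) = Nat.card (SL(2, ℤ) ⧸ Gamma0 N) := by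
  rw [show fixedBy (SL(2, ℤ) ⧸ Gamma0 N) (1 : SL(2, ℤ)) = Set.univ from Set.ext fun x => by simp,
    Nat.card_congr (Equiv.Set.univ _)]

/-- `2 · #(⟨S⟩-orbits) = index + ν₂`. -/
theorem two_mul_card_orbits_S :
    2 * Nat.card (orbitRel.Quotient (Subgroup.zpowers S) (SL(2, ℤ) ⧸ Gamma0 N))
      = Nat.card (SL(2, ℤ) ⧸ Gamma0 N) + ModularCurve.nuTwo N := by
  have h := sum_fixedBy_pow_eq (N := N) (g := S) (orderOf_pos_iff.mp (by rw [orderOf_S]; norm_num))
  rw [Fin.sum_univ_eq_sum_range (fun i => Nat.card (fixedBy (SL(2, ℤ) ⧸ Gamma0 N) (S ^ i))),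
    orderOf_S] at h
  simp only [Finset.sum_range_succ, Finset.sum_range_zero, zero_add, pow_zero, pow_one] at h
  rw [show (S ^ 2 : SL(2, ℤ)) = -1 by decide, show (S ^ 3 : SL(2, ℤ)) = -S by decide,
    fixedBy_neg, fixedBy_neg, fixedBy_one_eq, card_fixedBy_S] at h
  lia

/-- `3 · #(⟨ST⟩-orbits) = index + 2ν₃`. -/
theorem three_mul_card_orbits_ST :
    3 * Nat.card (orbitRel.Quotient (Subgroup.zpowers (S * T)) (SL(2, ℤ) ⧸ Gamma0 N))
      = Nat.card (SL(2, ℤ) ⧸ Gamma0 N) + 2 * ModularCurve.nuThree N := by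
  have h := sum_fixedBy_pow_eq (N := N) (g := S * T)
    (orderOf_pos_iff.mp (by rw [orderOf_ST]; norm_num))
  rw [Fin.sum_univ_eq_sum_range (fun i => Nat.card (fixedBy (SL(2, ℤ) ⧸ Gamma0 N) ((S * T) ^ i))),
    orderOf_ST] at h
  simp only [Finset.sum_range_succ, Finset.sum_range_zero, zero_add, pow_zero, pow_one] at h
  rw [show ((S * T) ^ 2 : SL(2, ℤ)) = -(S * T)⁻¹ by decide,
    show ((S * T) ^ 3 : SL(2, ℤ)) = -1 by decide,
    show ((S * T) ^ 4 : SL(2, ℤ)) = -(S * T) by decide,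
    show ((S * T) ^ 5 : SL(2, ℤ)) = (S * T)⁻¹ by decide,
    fixedBy_neg, fixedBy_neg, fixedBy_neg, fixedBy_one_eq, fixedBy_inv, card_fixedBy_ST] at h
  lia

end Fermat.Agent.Gamma0Cosets
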