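import Mathlib.NumberTheory.ModularForms.CongruenceSubgroups
import Mathlib.GroupTheory.GroupAction.Quotient

/-!
# The coset space `SL(2, ℤ) ⧸ Γ₀(N)` through bottom rows

`pt A` is the coset of `A⁻¹`; two of them agree iff the bottom rows are proportional modulo `N`.
-/

set_option autoImplicit false

open CongruenceSubgroup Matrix.SpecialLinearGroup
open scoped MatrixGroups

namespace Fermat.Agent.Gamma0Cosets

variable {N : ℕ}

/-- The coset attached to (the bottom row of) `A`. -/
def pt (N : ℕ) (A : SL(2, ℤ)) : SL(2, ℤ) ⧸ Gamma0 N := QuotientGroup.mk A⁻¹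

/-- The "cross product" of the bottom rows of two matrices. -/
def crossProd (A B : SL(2, ℤ)) : ℤ := A 1 0 * B 1 1 - A 1 1 * B 1 0

/-- Every coset is `pt N A` for some `A`. -/
theorem pt_surjective (x : SL(2, ℤ) ⧸ Gamma0 N) : ∃ A, pt N A = x := by
  induction x using QuotientGroup.induction_on with
  | H g => exact ⟨g⁻¹, by simp [pt]⟩

/-- Two cosets agree iff the cross product of the bottom rows vanishes modulo `N`. -/
theorem pt_eq_pt_iff {A B : SL(2, ℤ)} :
    pt N A = pt N B ↔ (N : ℤ) ∣ crossProd A B := by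
  rw [pt, pt, QuotientGroup.eq, Gamma0_mem, ← ZMod.intCast_zmod_eq_zero_iff_dvd]
  have : (A⁻¹⁻¹ * B⁻¹ : SL(2, ℤ)) 1 0 = crossProd A B := by
    simp [crossProd, coe_inv, Matrix.adjugate_fin_two, Matrix.mul_apply, Fin.sum_univ_two,
      sub_eq_add_neg]
  rw [this]

/-- The action on cosets in terms of `pt`. -/
theorem smul_pt (g A : SL(2, ℤ)) : g • pt N A = pt N (A * g⁻¹) := by
  simp [pt, MulAction.Quotient.smul_mk, mul_inv_rev]

/-- `-1` acts trivially on the cosets of `Γ₀(N)`. -/
theorem neg_one_smul (x : SL(2, ℤ) ⧸ Gamma0 N) : (-1 : SL(2, ℤ)) • x = x := by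
  obtain ⟨A, rfl⟩ := pt_surjective x
  rw [smul_pt, pt_eq_pt_iff]
  simp [crossProd]
  ring_nf
  simp

end Fermat.Agent.Gamma0Cosets
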