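import Fermat.Agent.Gamma0Cosets.Basic
import Fermat.Prelude.Def_ModularCurve_GenusNumerics

/-!
# Fixed points of `S` and `S * T` on the cosets of `Γ₀(N)`

They correspond to the roots modulo `N` of `u ^ 2 + 1` and `u ^ 2 + u + 1`, so their numbers are
`nuTwo N` and `nuThree N`.
-/

set_option autoImplicit false

open CongruenceSubgroup Matrix.SpecialLinearGroup ModularGroup
open scoped MatrixGroups

namespace Fermat.Agent.Gamma0Cosets

variable {N : ℕ} [NeZero N]

/-- `![0,-1;1,u]`, a matrix with bottom row `(1, u)`. -/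
def rowOne (u : ℤ) : SL(2, ℤ) := ⟨!![0, -1; 1, u], by simp [Matrix.det_fin_two]⟩

@[simp] theorem rowOne_zero (u : ℤ) : rowOne u 1 0 = 1 := rfl
@[simp] theorem rowOne_one (u : ℤ) : rowOne u 1 1 = u := rfl

omit [NeZero N] in
/-- If `g` fixes a point exactly when a quadratic form of the bottom row
`c² + b·c·d + d²` vanishes mod `N`, the fixed points biject with the roots of `1 + b x + x²`. -/
theorem card_fixedBy_eq {g : SL(2, ℤ)} {b : ℤ}
    (hg : ∀ A : SL(2, ℤ), g • pt N A = pt N A ↔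
      ((A 1 0 : ZMod N) ^ 2 + b * (A 1 0) * (A 1 1) + (A 1 1 : ZMod N) ^ 2 = 0)) :
    Nat.card (MulAction.fixedBy (SL(2, ℤ) ⧸ Gamma0 N) g)
      = Nat.card {x : ZMod N // x ^ 2 + b * x + 1 = 0} := by
  symm
  refine Nat.card_eq_of_bijective (fun x => ⟨pt N (rowOne (x.1.cast : ℤ)), ?_⟩) ⟨?_, ?_⟩
  · rw [MulAction.mem_fixedBy, hg]
    have h := x.2
    simp only [rowOne_zero, rowOne_one, Int.cast_one, one_pow, mul_one, ZMod.intCast_zmod_cast]
    linear_combination h
  · rintro ⟨x, hx⟩ ⟨y, hy⟩ h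
    have h' := congrArg Subtype.val h
    simp only [pt_eq_pt_iff, ← ZMod.intCast_zmod_eq_zero_iff_dvd, crossProd, rowOne_zero,
      rowOne_one] at h'
    push_cast at h'
    rw [one_mul, mul_one, sub_eq_zero] at h'
    exact Subtype.ext h'.symm
  · rintro ⟨p, hp⟩
    obtain ⟨A, rfl⟩ := pt_surjective p
    rw [MulAction.mem_fixedBy, hg] at hp
    set c : ZMod N := ((A 1 0 : ℤ) : ZMod N) with hc
    set d : ZMod N := ((A 1 1 : ℤ) : ZMod N) with hd
    obtain ⟨s, t, hst⟩ := isCoprime_row A 1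
    have hst' : (s : ZMod N) * c + (t : ZMod N) * d = 1 := by
      have := congrArg (Int.cast : ℤ → ZMod N) hst
      push_cast at this; exact this
    -- `c` is a unit: `1 = (s c + t d)²` and `d² ∈ (c)`.
    obtain ⟨w, hw⟩ : ∃ w, c * w = 1 :=
      ⟨(s : ZMod N) ^ 2 * c + 2 * s * t * d - (t : ZMod N) ^ 2 * (c + b * d),
        by linear_combination ((s : ZMod N) * c + t * d + 1) * hst' - (t : ZMod N) ^ 2 * hp⟩
    refine ⟨⟨d * w, ?_⟩, Subtype.ext ?_⟩
    · linear_combination w ^ 2 * hp - (1 + c * w + b * (d * w)) * hw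
    · simp only [pt_eq_pt_iff, ← ZMod.intCast_zmod_eq_zero_iff_dvd, crossProd, rowOne_zero,
        rowOne_one]
      push_cast
      linear_combination -d * hw

omit [NeZero N] in
theorem fixed_S_iff (A : SL(2, ℤ)) : S • pt N A = pt N A ↔
    ((A 1 0 : ZMod N) ^ 2 + ((0 : ℤ) : ZMod N) * (A 1 0) * (A 1 1) + (A 1 1 : ZMod N) ^ 2 = 0) := by
  rw [smul_pt, pt_eq_pt_iff, ← ZMod.intCast_zmod_eq_zero_iff_dvd]
  have h : crossProd (A * S⁻¹) A = -(A 1 1 * A 1 1 + A 1 0 * A 1 0) := by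
    simp [crossProd, coe_inv, coe_S, Matrix.adjugate_fin_two, Matrix.mul_apply, Fin.sum_univ_two]
    ring
  rw [h, Int.cast_neg, neg_eq_zero]
  push_cast
  constructor <;> intro h <;> linear_combination h

omit [NeZero N] in
theorem fixed_ST_iff (A : SL(2, ℤ)) : (S * T) • pt N A = pt N A ↔
    ((A 1 0 : ZMod N) ^ 2 + ((-1 : ℤ) : ZMod N) * (A 1 0) * (A 1 1) + (A 1 1 : ZMod N) ^ 2 = 0) := by
  rw [smul_pt, pt_eq_pt_iff, ← ZMod.intCast_zmod_eq_zero_iff_dvd]
  have h : crossProd (A * (S * T)⁻¹) A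
      = A 1 0 * A 1 1 - A 1 1 * A 1 1 - A 1 0 * A 1 0 := by
    simp [crossProd, coe_inv, coe_S, coe_T, Matrix.adjugate_fin_two, Matrix.mul_apply,
      Fin.sum_univ_two]
    ring
  rw [h]
  push_cast
  constructor <;> intro h <;> linear_combination -h

omit [NeZero N] in
/-- `S` fixes `nuTwo N` cosets of `Γ₀(N)`. -/
theorem card_fixedBy_S :
    Nat.card (MulAction.fixedBy (SL(2, ℤ) ⧸ Gamma0 N) S) = ModularCurve.nuTwo N := by
  rw [card_fixedBy_eq fixed_S_iff]
  refine Nat.card_congr (Equiv.subtypeEquivRight fun x => ?_)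
  simp

omit [NeZero N] in
/-- `S * T` fixes `nuThree N` cosets of `Γ₀(N)`. -/
theorem card_fixedBy_ST :
    Nat.card (MulAction.fixedBy (SL(2, ℤ) ⧸ Gamma0 N) (S * T)) = ModularCurve.nuThree N := by
  rw [card_fixedBy_eq fixed_ST_iff]
  refine Nat.card_congr ((Equiv.neg (ZMod N)).subtypeEquiv fun x => ?_)
  simp

end Fermat.Agent.Gamma0Cosets
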